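import Mathlib

/-!
# S16, work package L-lat (helper436): the explicit quaternary lattice of level `p`

For integers `p s r t` with `r ^ 2 + p = (4 * s - 1) * t` the symmetric even matrix

```
A = [[2, 1, 0, 0], [1, 2s, 0, r], [0, 0, 2ps, p], [0, r, p, 2t]]
```

satisfies `A * B = p • 1` for an explicit symmetric even integer matrix `B`, has `det A = p ^ 2`,
and is positive definite as soon as `0 < p` and `0 < s`.
For every odd prime `p` such parameters exist (`p ≡ 3 mod 4`: `q = 4s - 1 = p, r = 0, t = 1`;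
`p ≡ 5 mod 8`: `q = (p+1)/2, r = 1, t = 2`; `p ≡ 1 mod 8`: Dirichlet + quadratic reciprocity).
-/

namespace Fermat.Agent.S16.H436

open Matrix

/-- The Gram matrix `A` of the quaternary lattice (with `q = 4 s - 1`). -/
def gramA (p s r t : ℤ) : Matrix (Fin 4) (Fin 4) ℤ :=
  !![2, 1, 0, 0;
     1, 2 * s, 0, r;
     0, 0, 2 * p * s, p;
     0, r, p, 2 * t]

/-- The matrix `B = p A⁻¹`. -/
def gramB (p s r t : ℤ) : Matrix (Fin 4) (Fin 4) ℤ :=
  !![2 * s * t, p - 4 * s * t, -r, 2 * r * s;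
     p - 4 * s * t, 2 * (4 * s * t - p), 2 * r, -(4 * r * s);
     -r, 2 * r, 2, -(4 * s - 1);
     2 * r * s, -(4 * r * s), -(4 * s - 1), 2 * s * (4 * s - 1)]

theorem gramA_isSymm (p s r t : ℤ) : (gramA p s r t).IsSymm := by
  ext i j
  fin_cases i <;> fin_cases j <;> simp [gramA, Matrix.transpose_apply]

theorem gramB_isSymm (p s r t : ℤ) : (gramB p s r t).IsSymm := by
  ext i j
  fin_cases i <;> fin_cases j <;> simp [gramB, Matrix.transpose_apply]

theorem gramA_diag_even (p s r t : ℤ) (i : Fin 4) : Even (gramA p s r t i i) := by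
  fin_cases i
  · exact ⟨1, by simp [gramA]⟩
  · exact ⟨s, by simp [gramA]; ring⟩
  · exact ⟨p * s, by simp [gramA]; ring⟩
  · exact ⟨t, by simp [gramA]; ring⟩

theorem gramB_diag_even (p s r t : ℤ) (i : Fin 4) : Even (gramB p s r t i i) := by
  fin_cases i
  · exact ⟨s * t, by simp [gramB]; ring⟩
  · exact ⟨4 * s * t - p, by simp [gramB]; ring⟩
  · exact ⟨1, by simp [gramB]⟩
  · exact ⟨s * (4 * s - 1), by simp [gramB]; ring⟩

theorem gramA_mul_gramB {p s r t : ℤ} (h : r ^ 2 + p = (4 * s - 1) * t) :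
    gramA p s r t * gramB p s r t = p • (1 : Matrix (Fin 4) (Fin 4) ℤ) := by
  obtain rfl : p = (4 * s - 1) * t - r ^ 2 := by linarith
  ext i j
  fin_cases i <;> fin_cases j <;>
    simp [gramA, gramB, Matrix.mul_apply, Fin.sum_univ_four] <;> ring

theorem gramB_mul_gramA {p s r t : ℤ} (h : r ^ 2 + p = (4 * s - 1) * t) :
    gramB p s r t * gramA p s r t = p • (1 : Matrix (Fin 4) (Fin 4) ℤ) := by
  obtain rfl : p = (4 * s - 1) * t - r ^ 2 := by linarith
  ext i j
  fin_cases i <;> fin_cases j <;>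
    simp [gramA, gramB, Matrix.mul_apply, Fin.sum_univ_four] <;> ring

theorem gramA_det {p s r t : ℤ} (h : r ^ 2 + p = (4 * s - 1) * t) :
    (gramA p s r t).det = p ^ 2 := by
  obtain rfl : p = (4 * s - 1) * t - r ^ 2 := by linarith
  simp [gramA, Matrix.det_succ_row_zero, Fin.sum_univ_succ, Fin.succAbove]
  ring

/-- The quadratic form `xᵀ A x` in coordinates. -/
theorem gramA_quadratic (p s r t : ℤ) (x : Fin 4 → ℤ) :
    x ⬝ᵥ (gramA p s r t *ᵥ x) =
      2 * x 0 ^ 2 + 2 * x 0 * x 1 + 2 * s * x 1 ^ 2 + 2 * r * x 1 * x 3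
        + 2 * p * s * x 2 ^ 2 + 2 * p * x 2 * x 3 + 2 * t * x 3 ^ 2 := by
  simp [gramA, dotProduct, Matrix.mulVec, Fin.sum_univ_four]
  ring

/-- Sum-of-squares identity (completing the squares), cleared of denominators. -/
theorem gramA_sos {p s r t : ℤ} (h : r ^ 2 + p = (4 * s - 1) * t) (x : Fin 4 → ℤ) :
    2 * (4 * s - 1) * s * (x ⬝ᵥ (gramA p s r t *ᵥ x)) =
      (4 * s - 1) * s * (2 * x 0 + x 1) ^ 2 + s * ((4 * s - 1) * x 1 + 2 * r * x 3) ^ 2
        + p * (4 * s - 1) * (2 * s * x 2 + x 3) ^ 2 + p * x 3 ^ 2 := by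
  rw [gramA_quadratic]
  obtain rfl : p = (4 * s - 1) * t - r ^ 2 := by linarith
  ring

/-- Integral positive definiteness. -/
theorem gramA_pos {p s r t : ℤ} (hp : 0 < p) (hs : 0 < s) (h : r ^ 2 + p = (4 * s - 1) * t)
    {x : Fin 4 → ℤ} (hx : x ≠ 0) : 0 < x ⬝ᵥ (gramA p s r t *ᵥ x) := by
  have hq : 0 < 4 * s - 1 := by linarith
  have hsos := gramA_sos h x
  by_contra hneg
  have hle : x ⬝ᵥ (gramA p s r t *ᵥ x) ≤ 0 := not_lt.mp hneg
  have hL : 2 * (4 * s - 1) * s * (x ⬝ᵥ (gramA p s r t *ᵥ x)) ≤ 0 :=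
    mul_nonpos_of_nonneg_of_nonpos (by positivity) hle
  have t1 : 0 ≤ (4 * s - 1) * s * (2 * x 0 + x 1) ^ 2 := by positivity
  have t2 : 0 ≤ s * ((4 * s - 1) * x 1 + 2 * r * x 3) ^ 2 := by positivity
  have t3 : 0 ≤ p * (4 * s - 1) * (2 * s * x 2 + x 3) ^ 2 := by positivity
  have t4 : 0 ≤ p * x 3 ^ 2 := by positivity
  have e4 : p * x 3 ^ 2 = 0 := by linarith
  have e3 : p * (4 * s - 1) * (2 * s * x 2 + x 3) ^ 2 = 0 := by linarith
  have e2 : s * ((4 * s - 1) * x 1 + 2 * r * x 3) ^ 2 = 0 := by linarith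
  have e1 : (4 * s - 1) * s * (2 * x 0 + x 1) ^ 2 = 0 := by linarith
  have x3 : x 3 = 0 := by
    rcases mul_eq_zero.mp e4 with h' | h'
    · exact absurd h' hp.ne'
    · exact pow_eq_zero_iff (two_ne_zero) |>.mp h'
  have x2 : x 2 = 0 := by
    rw [x3, add_zero] at e3
    rcases mul_eq_zero.mp e3 with h' | h'
    · exact absurd h' (mul_pos hp hq).ne'
    · have := pow_eq_zero_iff (two_ne_zero) |>.mp h'
      rcases mul_eq_zero.mp this with h'' | h''
      · exact absurd h'' (by positivity)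
      · exact h''
  have x1 : x 1 = 0 := by
    rw [x3, mul_zero, add_zero] at e2
    rcases mul_eq_zero.mp e2 with h' | h'
    · exact absurd h' hs.ne'
    · have := pow_eq_zero_iff (two_ne_zero) |>.mp h'
      rcases mul_eq_zero.mp this with h'' | h''
      · exact absurd h'' hq.ne'
      · exact h''
  have x0 : x 0 = 0 := by
    rw [x1, add_zero] at e1
    rcases mul_eq_zero.mp e1 with h' | h'
    · exact absurd h' (mul_pos hq hs).ne'
    · have := pow_eq_zero_iff (two_ne_zero) |>.mp h'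
      rcases mul_eq_zero.mp this with h'' | h''
      · exact absurd h'' two_ne_zero
      · exact h''
  apply hx
  ext i
  fin_cases i <;> simp [x0, x1, x2, x3]

/-- The real quadratic form in coordinates. -/
theorem gramA_real_quadratic (p s r t : ℤ) (x : Fin 4 → ℝ) :
    star x ⬝ᵥ ((gramA p s r t).map (Int.cast : ℤ → ℝ) *ᵥ x) =
      2 * x 0 ^ 2 + 2 * x 0 * x 1 + 2 * s * x 1 ^ 2 + 2 * r * x 1 * x 3
        + 2 * p * s * x 2 ^ 2 + 2 * p * x 2 * x 3 + 2 * t * x 3 ^ 2 := by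
  simp [gramA, dotProduct, Matrix.mulVec, Fin.sum_univ_four]
  ring

theorem gramA_real_sos {p s r t : ℤ} (h : r ^ 2 + p = (4 * s - 1) * t) (x : Fin 4 → ℝ) :
    2 * (4 * (s : ℝ) - 1) * s * (star x ⬝ᵥ ((gramA p s r t).map (Int.cast : ℤ → ℝ) *ᵥ x)) =
      (4 * (s : ℝ) - 1) * s * (2 * x 0 + x 1) ^ 2 + s * ((4 * (s : ℝ) - 1) * x 1 + 2 * r * x 3) ^ 2
        + p * (4 * (s : ℝ) - 1) * (2 * s * x 2 + x 3) ^ 2 + p * x 3 ^ 2 := by
  rw [gramA_real_quadratic]
  have hp : (p : ℝ) = (4 * (s : ℝ) - 1) * t - (r : ℝ) ^ 2 := by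
    have : ((r ^ 2 + p : ℤ) : ℝ) = (((4 * s - 1) * t : ℤ) : ℝ) := by rw [h]
    push_cast at this
    linarith
  rw [hp]
  ring

/-- Real positive definiteness of the Gram matrix. -/
theorem gramA_posDef {p s r t : ℤ} (hp : 0 < p) (hs : 0 < s) (h : r ^ 2 + p = (4 * s - 1) * t) :
    ((gramA p s r t).map (Int.cast : ℤ → ℝ)).PosDef := by
  refine Matrix.PosDef.of_dotProduct_mulVec_pos ?_ ?_
  · have := gramA_isSymm p s r t
    rw [Matrix.IsHermitian, Matrix.conjTranspose_eq_transpose_of_trivial]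
    rw [← Matrix.transpose_map, this.eq]
  · intro x hx
    have hsR : (0 : ℝ) < s := by exact_mod_cast hs
    have hpR : (0 : ℝ) < p := by exact_mod_cast hp
    have hq : (0 : ℝ) < 4 * (s : ℝ) - 1 := by
      have : (1 : ℝ) ≤ s := by exact_mod_cast hs
      linarith
    have hsos := gramA_real_sos h x
    by_contra hneg
    have hle : star x ⬝ᵥ ((gramA p s r t).map (Int.cast : ℤ → ℝ) *ᵥ x) ≤ 0 := not_lt.mp hneg
    have hL : 2 * (4 * (s : ℝ) - 1) * s *
        (star x ⬝ᵥ ((gramA p s r t).map (Int.cast : ℤ → ℝ) *ᵥ x)) ≤ 0 :=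
      mul_nonpos_of_nonneg_of_nonpos (by positivity) hle
    have t1 : 0 ≤ (4 * (s : ℝ) - 1) * s * (2 * x 0 + x 1) ^ 2 := by positivity
    have t2 : 0 ≤ (s : ℝ) * ((4 * (s : ℝ) - 1) * x 1 + 2 * r * x 3) ^ 2 := by positivity
    have t3 : 0 ≤ (p : ℝ) * (4 * (s : ℝ) - 1) * (2 * s * x 2 + x 3) ^ 2 := by positivity
    have t4 : 0 ≤ (p : ℝ) * x 3 ^ 2 := by positivity
    have e4 : (p : ℝ) * x 3 ^ 2 = 0 := by linarith
    have e3 : (p : ℝ) * (4 * (s : ℝ) - 1) * (2 * s * x 2 + x 3) ^ 2 = 0 := by linarith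
    have e2 : (s : ℝ) * ((4 * (s : ℝ) - 1) * x 1 + 2 * r * x 3) ^ 2 = 0 := by linarith
    have e1 : (4 * (s : ℝ) - 1) * s * (2 * x 0 + x 1) ^ 2 = 0 := by linarith
    have x3 : x 3 = 0 := by
      rcases mul_eq_zero.mp e4 with h' | h'
      · exact absurd h' hpR.ne'
      · exact pow_eq_zero_iff (two_ne_zero) |>.mp h'
    have x2 : x 2 = 0 := by
      rw [x3, add_zero] at e3
      rcases mul_eq_zero.mp e3 with h' | h'
      · exact absurd h' (mul_pos hpR hq).ne'
      · have := pow_eq_zero_iff (two_ne_zero) |>.mp h'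
        rcases mul_eq_zero.mp this with h'' | h''
        · exact absurd h'' (by positivity)
        · exact h''
    have x1 : x 1 = 0 := by
      rw [x3, mul_zero, add_zero] at e2
      rcases mul_eq_zero.mp e2 with h' | h'
      · exact absurd h' hsR.ne'
      · have := pow_eq_zero_iff (two_ne_zero) |>.mp h'
        rcases mul_eq_zero.mp this with h'' | h''
        · exact absurd h'' hq.ne'
        · exact h''
    have x0 : x 0 = 0 := by
      rw [x1, add_zero] at e1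
      rcases mul_eq_zero.mp e1 with h' | h'
      · exact absurd h' (mul_pos hq hsR).ne'
      · have := pow_eq_zero_iff (two_ne_zero) |>.mp h'
        rcases mul_eq_zero.mp this with h'' | h''
        · exact absurd h'' two_ne_zero
        · exact h''
    apply hx
    ext i
    fin_cases i <;> simp [x0, x1, x2, x3]

/-! ### Existence of the parameters -/

/-- For a prime `p ≡ 1 mod 4` there is a prime `q ≡ 3 mod 4` such that `-p` is a square mod `q`
(Dirichlet's theorem + quadratic reciprocity). -/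
theorem exists_prime_three_mod_four_neg_isSquare {p : ℕ} (hp : p.Prime) (hp1 : p % 4 = 1) :
    ∃ q : ℕ, q.Prime ∧ q % 4 = 3 ∧ ∃ y : ℤ, (q : ℤ) ∣ y ^ 2 + p := by
  have := Fact.mk hp
  have hp2 : p ≠ 2 := by rintro rfl; simp at hp1
  -- a non-residue mod p
  have hchar : ringChar (ZMod p) ≠ 2 := by rwa [ZMod.ringChar_zmod_n]
  obtain ⟨n, hn⟩ := FiniteField.exists_nonsquare hchar
  have hn0 : n ≠ 0 := by
    rintro rfl
    exact hn ⟨0, by simp⟩
  -- CRT
  have hcop : Nat.Coprime 4 p := by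
    have h2 : Nat.Coprime 2 p := (Nat.coprime_primes Nat.prime_two hp).mpr (Ne.symm hp2)
    have : Nat.Coprime (2 ^ 2) p := Nat.Coprime.pow_left 2 h2
    simpa using this
  obtain ⟨a, ha4, hap⟩ := Nat.chineseRemainder hcop 3 n.val
  have hpos : 4 * p ≠ 0 := by have := hp.pos; omega
  -- a is coprime to 4 * p
  have ha_p : ((a : ℕ) : ZMod p) = n := by
    have : ((a : ℕ) : ZMod p) = ((n.val : ℕ) : ZMod p) := (ZMod.natCast_eq_natCast_iff _ _ _).mpr hap
    rw [this, ZMod.natCast_zmod_val]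
  have hcop_ap : Nat.Coprime a p := by
    rw [Nat.coprime_comm, Nat.Prime.coprime_iff_not_dvd hp]
    intro hdiv
    apply hn0
    rw [← ha_p]
    exact (ZMod.natCast_eq_zero_iff a p).mpr hdiv
  have ha4' : a % 4 = 3 := by
    have := ha4
    unfold Nat.ModEq at this
    simpa using this
  have hcop_a4 : Nat.Coprime a 4 := by
    have h2 : Nat.Coprime a 2 := by
      rw [Nat.coprime_comm, Nat.Prime.coprime_iff_not_dvd Nat.prime_two]
      omega
    have : Nat.Coprime a (2 ^ 2) := Nat.Coprime.pow_right 2 h2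
    simpa using this
  have hcop_a : IsCoprime (a : ℤ) ((4 * p : ℕ) : ℤ) := by
    rw [Nat.isCoprime_iff_coprime]
    exact Nat.Coprime.mul_right hcop_a4 hcop_ap
  obtain ⟨q, -, hq, hqa⟩ := Nat.forall_exists_prime_gt_and_zmodEq 2 hpos hcop_a
  have hq4 : q % 4 = 3 := by
    have h1 : (q : ℤ) ≡ a [ZMOD 4] := by
      apply Int.ModEq.of_dvd _ hqa
      exact ⟨p, by push_cast; ring⟩
    have h2 : q ≡ a [MOD 4] := by exact_mod_cast h1
    unfold Nat.ModEq at h2
    omega
  have hqp : ((q : ℕ) : ZMod p) = n := by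
    have h1 : (q : ℤ) ≡ a [ZMOD p] := by
      apply Int.ModEq.of_dvd _ hqa
      exact ⟨4, by push_cast; ring⟩
    have h2 : q ≡ a [MOD p] := by exact_mod_cast h1
    rw [← ha_p]
    exact (ZMod.natCast_eq_natCast_iff _ _ _).mpr h2
  have := Fact.mk hq
  have hq2 : q ≠ 2 := by rintro rfl; simp at hq4
  refine ⟨q, hq, hq4, ?_⟩
  -- p is not a square mod q
  have hnsq : ¬ IsSquare ((p : ℕ) : ZMod q) := by
    rw [← ZMod.exists_sq_eq_prime_iff_of_mod_four_eq_one hp1 hq2, hqp]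
    exact hn
  -- -1 is not a square mod q
  have hneg1 : ¬ IsSquare (-1 : ZMod q) := by
    rw [ZMod.exists_sq_eq_neg_one_iff]
    simp [hq4]
  have hcharq : ringChar (ZMod q) ≠ 2 := by rwa [ZMod.ringChar_zmod_n]
  have hpq0 : ((p : ℕ) : ZMod q) ≠ 0 := by
    intro h0
    exact hnsq ⟨0, by simp [h0]⟩
  have hsq : IsSquare (-((p : ℕ) : ZMod q)) := by
    have h1 : quadraticChar (ZMod q) (-1) = -1 :=
      (quadraticChar_neg_one_iff_not_isSquare).mpr hneg1
    have h2 : quadraticChar (ZMod q) ((p : ℕ) : ZMod q) = -1 :=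
      (quadraticChar_neg_one_iff_not_isSquare).mpr hnsq
    have h3 : quadraticChar (ZMod q) (-((p : ℕ) : ZMod q)) = 1 := by
      have : -((p : ℕ) : ZMod q) = (-1) * ((p : ℕ) : ZMod q) := by ring
      rw [this, map_mul, h1, h2]
      norm_num
    exact (quadraticChar_one_iff_isSquare (neg_ne_zero.mpr hpq0)).mp h3
  obtain ⟨y, hy⟩ := hsq
  refine ⟨(y.val : ℤ), ?_⟩
  rw [← ZMod.intCast_zmod_eq_zero_iff_dvd]
  push_cast
  rw [ZMod.natCast_zmod_val]
  rw [pow_two, ← hy]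
  ring

/-- For every odd prime `p` there are integers `s > 0`, `r`, `t` with `r² + p = (4s - 1) t`. -/
theorem exists_params {p : ℕ} (hp : p.Prime) (hp2 : p ≠ 2) :
    ∃ s r t : ℤ, 0 < s ∧ r ^ 2 + (p : ℤ) = (4 * s - 1) * t := by
  have hodd : p % 2 = 1 := by
    rcases hp.eq_two_or_odd with h | h
    · exact absurd h hp2
    · exact h
  have h8 : p % 8 = 1 ∨ p % 8 = 3 ∨ p % 8 = 5 ∨ p % 8 = 7 := by omega
  by_cases h4 : p % 4 = 3
  · -- q = p
    refine ⟨((p + 1) / 4 : ℕ), 0, 1, ?_, ?_⟩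
    · have : 0 < (p + 1) / 4 := by omega
      exact_mod_cast this
    · have : 4 * ((p + 1) / 4) = p + 1 := by omega
      have h' : (4 : ℤ) * (((p + 1) / 4 : ℕ) : ℤ) = p + 1 := by exact_mod_cast this
      linarith
  · by_cases h5 : p % 8 = 5
    · refine ⟨((p + 3) / 8 : ℕ), 1, 2, ?_, ?_⟩
      · have : 0 < (p + 3) / 8 := by omega
        exact_mod_cast this
      · have : 8 * ((p + 3) / 8) = p + 3 := by omega
        have h' : (8 : ℤ) * (((p + 3) / 8 : ℕ) : ℤ) = p + 3 := by exact_mod_cast this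
        linarith
    · have hp1 : p % 4 = 1 := by omega
      obtain ⟨q, hq, hq4, y, hy⟩ := exists_prime_three_mod_four_neg_isSquare hp hp1
      obtain ⟨t, ht⟩ := hy
      refine ⟨((q + 1) / 4 : ℕ), y, t, ?_, ?_⟩
      · have : 0 < (q + 1) / 4 := by omega
        exact_mod_cast this
      · have : 4 * ((q + 1) / 4) = q + 1 := by omega
        have h' : (4 : ℤ) * (((q + 1) / 4 : ℕ) : ℤ) = q + 1 := by exact_mod_cast this
        have : (4 : ℤ) * (((q + 1) / 4 : ℕ) : ℤ) - 1 = q := by linarith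
        rw [this, ht]

/-- **L-lat.** For every odd prime `p` there is an even, symmetric, positive definite integral
`4 × 4` matrix `A` of determinant `p ^ 2` and level `p` (i.e. `p A⁻¹ = B` is integral, symmetric
and even). -/
theorem exists_level_lattice {p : ℕ} (hp : p.Prime) (hp2 : p ≠ 2) :
    ∃ A B : Matrix (Fin 4) (Fin 4) ℤ,
      A.IsSymm ∧ B.IsSymm ∧ (∀ i, Even (A i i)) ∧ (∀ i, Even (B i i)) ∧
      A * B = (p : ℤ) • (1 : Matrix (Fin 4) (Fin 4) ℤ) ∧
      B * A = (p : ℤ) • (1 : Matrix (Fin 4) (Fin 4) ℤ) ∧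
      A.det = (p : ℤ) ^ 2 ∧
      (∀ x : Fin 4 → ℤ, x ≠ 0 → 0 < x ⬝ᵥ (A *ᵥ x)) ∧
      (A.map (Int.cast : ℤ → ℝ)).PosDef := by
  obtain ⟨s, r, t, hs, h⟩ := exists_params hp hp2
  have hp0 : (0 : ℤ) < p := by exact_mod_cast hp.pos
  exact ⟨gramA p s r t, gramB p s r t, gramA_isSymm _ _ _ _, gramB_isSymm _ _ _ _,
    gramA_diag_even _ _ _ _, gramB_diag_even _ _ _ _, gramA_mul_gramB h, gramB_mul_gramA h,
    gramA_det h, fun x hx => gramA_pos hp0 hs h hx, gramA_posDef hp0 hs h⟩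

end Fermat.Agent.S16.H436
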