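import Mathlib

/-!
# S16 (helper436): `q`-expansion of the theta series of an even positive definite lattice

For an integral symmetric matrix `A` with even diagonal which is positive definite, the theta
series `Θ(τ) = ∑_{x ∈ ℤ^ι} exp(π i τ xᵀAx)` equals `∑_{m ≥ 0} r(m) q^m`, `q = exp(2π i τ)`,
with `r(m) = #{x : xᵀAx = 2m}`, `r(0) = 1` and `r(m)` even for `m ≥ 1`.  Consequently a modular
form whose underlying function is `Θ` has `q`-expansion coefficients `r(m)`.
-/

namespace Fermat.Agent.S16.H436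

open Matrix Complex Filter
open UpperHalfPlane hiding I
open scoped Real

local notation "𝕢" => Function.Periodic.qParam

variable {ι : Type*} [Fintype ι]

/-- The value `xᵀ A x` of the integral quadratic form. -/
def qf (A : Matrix ι ι ℤ) (x : ι → ℤ) : ℤ := x ⬝ᵥ (A *ᵥ x)

/-- Representation numbers `r(m) = #{x : xᵀAx = 2m}`. -/
noncomputable def repCount (A : Matrix ι ι ℤ) (m : ℕ) : ℕ :=
  Nat.card {x : ι → ℤ // qf A x = 2 * (m : ℤ)}

theorem qf_zero (A : Matrix ι ι ℤ) : qf A 0 = 0 := by simp [qf]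

theorem qf_neg (A : Matrix ι ι ℤ) (x : ι → ℤ) : qf A (-x) = qf A x := by
  simp [qf, Matrix.mulVec_neg]

/-- An even symmetric matrix takes even values. -/
theorem even_qf {A : Matrix ι ι ℤ} (hsymm : A.IsSymm) (heven : ∀ i, Even (A i i))
    (x : ι → ℤ) : Even (qf A x) := by
  suffices key : ((qf A x : ℤ) : ZMod 2) = 0 by
    have := (ZMod.intCast_zmod_eq_zero_iff_dvd (qf A x) 2).mp key
    exact even_iff_two_dvd.mpr (by exact_mod_cast this)
  have h1 : ((qf A x : ℤ) : ZMod 2) =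
      ∑ ij ∈ (Finset.univ : Finset (ι × ι)),
        ((x ij.1 : ZMod 2) * ((A ij.1 ij.2 : ℤ) : ZMod 2) * (x ij.2 : ZMod 2)) := by
    simp only [qf, dotProduct, Matrix.mulVec]
    push_cast
    rw [← Finset.univ_product_univ, Finset.sum_product]
    refine Finset.sum_congr rfl fun i _ => ?_
    rw [Finset.mul_sum]
    refine Finset.sum_congr rfl fun j _ => ?_
    ring
  rw [h1]
  refine Finset.sum_involution (fun ij _ => (ij.2, ij.1)) ?_ ?_ ?_ ?_
  · intro ij _
    have : A ij.2 ij.1 = A ij.1 ij.2 := by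
      have := congr_fun (congr_fun hsymm.eq ij.1) ij.2
      simpa [Matrix.transpose_apply] using this
    simp only [this]
    have h2 : ∀ a : ZMod 2, a + a = 0 := fun a => by
      have : (2 : ZMod 2) = 0 := by decide
      calc a + a = 2 * a := by ring
        _ = 0 := by rw [this, zero_mul]
    have := h2 ((x ij.1 : ZMod 2) * ((A ij.1 ij.2 : ℤ) : ZMod 2) * (x ij.2 : ZMod 2))
    calc _ = (x ij.1 : ZMod 2) * ((A ij.1 ij.2 : ℤ) : ZMod 2) * (x ij.2 : ZMod 2)
        + (x ij.1 : ZMod 2) * ((A ij.1 ij.2 : ℤ) : ZMod 2) * (x ij.2 : ZMod 2) := by ring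
      _ = 0 := this
  · rintro ⟨i, j⟩ _ hne heq
    simp only [Prod.mk.injEq] at heq
    obtain ⟨rfl, -⟩ := heq
    apply hne
    have : ((A j j : ℤ) : ZMod 2) = 0 :=
      (ZMod.intCast_zmod_eq_zero_iff_dvd _ 2).mpr (by exact_mod_cast even_iff_two_dvd.mp (heven j))
    simp [this]
  · intro ij _
    exact Finset.mem_univ _
  · intro ij _
    rfl

/-- Casting the integral form to the reals. -/
theorem qf_cast (A : Matrix ι ι ℤ) (x : ι → ℤ) :
    ((qf A x : ℤ) : ℝ) =
      star (fun i => (x i : ℝ)) ⬝ᵥ (A.map (Int.cast : ℤ → ℝ) *ᵥ fun i => (x i : ℝ)) := by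
  simp [qf, dotProduct, Matrix.mulVec]

theorem qf_pos {A : Matrix ι ι ℤ} (hpos : (A.map (Int.cast : ℤ → ℝ)).PosDef)
    {x : ι → ℤ} (hx : x ≠ 0) : 0 < qf A x := by
  have hx' : (fun i => (x i : ℝ)) ≠ 0 := by
    intro h
    apply hx
    ext i
    have := congr_fun h i
    simpa using this
  have := hpos.dotProduct_mulVec_pos hx'
  rw [← qf_cast] at this
  exact_mod_cast this

theorem qf_nonneg {A : Matrix ι ι ℤ} (hpos : (A.map (Int.cast : ℤ → ℝ)).PosDef)
    (x : ι → ℤ) : 0 ≤ qf A x := by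
  by_cases hx : x = 0
  · simp [hx, qf_zero]
  · exact (qf_pos hpos hx).le

theorem qf_eq_zero_iff {A : Matrix ι ι ℤ} (hpos : (A.map (Int.cast : ℤ → ℝ)).PosDef)
    (x : ι → ℤ) : qf A x = 0 ↔ x = 0 := by
  constructor
  · intro h
    by_contra hx
    exact (qf_pos hpos hx).ne' h
  · rintro rfl
    exact qf_zero A

theorem repCount_zero {A : Matrix ι ι ℤ} (hpos : (A.map (Int.cast : ℤ → ℝ)).PosDef) :
    repCount A 0 = 1 := by
  unfold repCount
  have : Unique {x : ι → ℤ // qf A x = 2 * ((0 : ℕ) : ℤ)} :=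
    { default := ⟨0, by simp [qf_zero]⟩
      uniq := by
        rintro ⟨x, hx⟩
        apply Subtype.ext
        simp only [Nat.cast_zero, mul_zero] at hx
        exact (qf_eq_zero_iff hpos x).mp hx }
  exact Nat.card_unique

theorem even_repCount (A : Matrix ι ι ℤ) {m : ℕ} (hm : m ≠ 0) : Even (repCount A m) := by
  unfold repCount
  rcases finite_or_infinite {x : ι → ℤ // qf A x = 2 * (m : ℤ)} with hfin | hinf
  · have := Fintype.ofFinite {x : ι → ℤ // qf A x = 2 * (m : ℤ)}
    rw [Nat.card_eq_fintype_card]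
    classical
    -- negation is a fixed point free involution
    let σ : Equiv.Perm {x : ι → ℤ // qf A x = 2 * (m : ℤ)} :=
      { toFun := fun x => ⟨-x.1, by rw [qf_neg]; exact x.2⟩
        invFun := fun x => ⟨-x.1, by rw [qf_neg]; exact x.2⟩
        left_inv := fun x => by simp
        right_inv := fun x => by simp }
    have hσ2 : σ ^ 2 = 1 := by
      ext x
      simp [σ, pow_two]
    have hsupp : σ.support = Finset.univ := by
      ext x
      simp only [Equiv.Perm.mem_support, Finset.mem_univ, iff_true]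
      intro hfix
      have h1 : -x.1 = x.1 := congr_arg Subtype.val hfix
      have h2 : x.1 = 0 := by
        ext i
        have := congr_fun h1 i
        simp only [Pi.neg_apply] at this
        simp only [Pi.zero_apply]
        omega
      have h3 := x.2
      rw [h2, qf_zero] at h3
      have : (m : ℤ) = 0 := by linarith
      exact hm (by exact_mod_cast this)
    have := Equiv.Perm.two_dvd_card_support hσ2
    rw [hsupp, Finset.card_univ] at this
    exact even_iff_two_dvd.mpr this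
  · rw [Nat.card_eq_zero_of_infinite]
    exact Even.zero

/-! ### Summability -/

/-- A positive definite real matrix is bounded below by a positive multiple of `‖·‖²`
(sup norm). -/
theorem exists_lower_bound {M : Matrix ι ι ℝ} (hM : M.PosDef) :
    ∃ c : ℝ, 0 < c ∧ ∀ y : ι → ℝ, c * ‖y‖ ^ 2 ≤ y ⬝ᵥ (M *ᵥ y) := by
  rcases isEmpty_or_nonempty ι with hι | hι
  · refine ⟨1, one_pos, fun y => ?_⟩
    have : y = 0 := Subsingleton.elim _ _
    simp [this]
  · have hcont : Continuous fun y : ι → ℝ => y ⬝ᵥ (M *ᵥ y) := by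
      simp only [dotProduct, Matrix.mulVec]
      fun_prop
    have hcpt : IsCompact (Metric.sphere (0 : ι → ℝ) 1) := isCompact_sphere _ _
    have hne : (Metric.sphere (0 : ι → ℝ) 1).Nonempty := by
      refine ⟨fun _ => 1, ?_⟩
      simp
    obtain ⟨x₀, hx₀, hmin⟩ := hcpt.exists_isMinOn hne hcont.continuousOn
    have hx₀ne : x₀ ≠ 0 := by
      intro h
      rw [h] at hx₀
      simp at hx₀
    have hc : 0 < x₀ ⬝ᵥ (M *ᵥ x₀) := by
      have := hM.dotProduct_mulVec_pos hx₀ne
      simpa using this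
    refine ⟨x₀ ⬝ᵥ (M *ᵥ x₀), hc, fun y => ?_⟩
    by_cases hy : y = 0
    · simp [hy]
    · have hny : 0 < ‖y‖ := norm_pos_iff.mpr hy
      have hu : ‖y‖⁻¹ • y ∈ Metric.sphere (0 : ι → ℝ) 1 := by
        simp [norm_smul, hny.ne']
      have h1 := hmin hu
      simp only [Set.mem_ofPred_eq] at h1
      have h2 : (‖y‖⁻¹ • y) ⬝ᵥ (M *ᵥ (‖y‖⁻¹ • y)) = (‖y‖⁻¹) ^ 2 * (y ⬝ᵥ (M *ᵥ y)) := by
        rw [Matrix.mulVec_smul, smul_dotProduct, dotProduct_smul]
        simp only [smul_eq_mul]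
        ring
      rw [h2] at h1
      have h3 : x₀ ⬝ᵥ (M *ᵥ x₀) * ‖y‖ ^ 2 ≤ (‖y‖⁻¹) ^ 2 * (y ⬝ᵥ (M *ᵥ y)) * ‖y‖ ^ 2 :=
        mul_le_mul_of_nonneg_right h1 (by positivity)
      have h4 : (‖y‖⁻¹) ^ 2 * (y ⬝ᵥ (M *ᵥ y)) * ‖y‖ ^ 2 = y ⬝ᵥ (M *ᵥ y) := by
        field_simp
      rw [h4] at h3
      exact h3

/-- Products of a nonnegative summable function are summable on `ι → ℤ`. -/
theorem summable_pi_prod {g : ℤ → ℝ} (hg : Summable g) (hnn : ∀ k, 0 ≤ g k) :
    Summable fun x : ι → ℤ => ∏ i, g (x i) := by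
  classical
  refine summable_of_sum_le (c := ∏ _i : ι, ∑' k, g k)
    (fun x => Finset.prod_nonneg fun i _ => hnn _) fun u => ?_
  let T : Finset ℤ := u.biUnion fun x => Finset.univ.image x
  have hsub : u ⊆ Fintype.piFinset fun _ : ι => T := by
    intro x hx
    rw [Fintype.mem_piFinset]
    intro i
    exact Finset.mem_biUnion.mpr ⟨x, hx, Finset.mem_image.mpr ⟨i, Finset.mem_univ _, rfl⟩⟩
  calc ∑ x ∈ u, ∏ i, g (x i)
      ≤ ∑ x ∈ Fintype.piFinset fun _ : ι => T, ∏ i, g (x i) :=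
        Finset.sum_le_sum_of_subset_of_nonneg hsub fun x _ _ =>
          Finset.prod_nonneg fun i _ => hnn _
    _ = ∏ _i : ι, ∑ k ∈ T, g k := (Finset.prod_univ_sum (fun _ : ι => T) fun _ k => g k).symm
    _ ≤ ∏ _i : ι, ∑' k, g k :=
        Finset.prod_le_prod (fun i _ => Finset.sum_nonneg fun k _ => hnn k)
          fun i _ => hg.sum_le_tsum T fun k _ => hnn k

theorem summable_exp_neg_abs {b : ℝ} (hb : 0 < b) :
    Summable fun k : ℤ => Real.exp (-b * |(k : ℝ)|) := by
  have hr : Real.exp (-b) < 1 := by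
    rw [Real.exp_lt_one_iff]
    linarith
  have hnat : Summable fun n : ℕ => Real.exp (-b * |((n : ℤ) : ℝ)|) := by
    have := summable_geometric_of_lt_one (Real.exp_pos (-b)).le hr
    refine this.congr fun n => ?_
    rw [← Real.exp_nat_mul]
    congr 1
    simp only [Int.cast_natCast, Nat.abs_cast]
    ring
  have hneg : Summable fun n : ℕ => Real.exp (-b * |((-(n : ℤ) : ℤ) : ℝ)|) := by
    refine hnat.congr fun n => ?_
    simp
  exact Summable.of_nat_of_neg hnat hneg

/-- The key summability statement: `∑_x exp(-a xᵀAx)` converges for `0 < a`. -/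
theorem summable_exp_neg_qf {A : Matrix ι ι ℤ} (hpos : (A.map (Int.cast : ℤ → ℝ)).PosDef)
    {a : ℝ} (ha : 0 < a) :
    Summable fun x : ι → ℤ => Real.exp (-a * (qf A x : ℝ)) := by
  obtain ⟨c, hc, hbound⟩ := exists_lower_bound hpos
  set N : ℝ := (Fintype.card ι : ℝ) + 1 with hN
  have hNpos : 0 < N := by positivity
  set b : ℝ := a * c / N with hb
  have hbpos : 0 < b := by positivity
  have hsum := summable_pi_prod (ι := ι) (summable_exp_neg_abs hbpos) fun k => (Real.exp_pos _).le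
  refine Summable.of_nonneg_of_le (fun x => (Real.exp_pos _).le) (fun x => ?_) hsum
  rw [← Real.exp_sum]
  apply Real.exp_le_exp.mpr
  -- ∑ |x i| ≤ N ‖y‖² ≤ (N / c) * qf
  set y : ι → ℝ := fun i => (x i : ℝ) with hy
  have hq : c * ‖y‖ ^ 2 ≤ (qf A x : ℝ) := by
    have := hbound y
    rw [qf_cast]
    simpa using this
  have habs : ∀ i, |(x i : ℝ)| ≤ ‖y‖ ^ 2 := by
    intro i
    have h1 : |(x i : ℝ)| ≤ ‖y‖ := by
      have := norm_le_pi_norm y i
      simpa [hy, Real.norm_eq_abs] using this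
    have h2 : |(x i : ℝ)| ≤ |(x i : ℝ)| ^ 2 := by
      have : (|x i| : ℤ) ≤ |x i| ^ 2 := by
        rcases (abs_nonneg (x i)).eq_or_lt with h | h
        · rw [← h]; norm_num
        · nlinarith
      have h3 : ((|x i| : ℤ) : ℝ) ≤ ((|x i| ^ 2 : ℤ) : ℝ) := by exact_mod_cast this
      simpa using h3
    calc |(x i : ℝ)| ≤ |(x i : ℝ)| ^ 2 := h2
      _ ≤ ‖y‖ ^ 2 := by
        apply pow_le_pow_left₀ (abs_nonneg _) h1
  have hsumabs : ∑ i, |(x i : ℝ)| ≤ N * ‖y‖ ^ 2 := by
    calc ∑ i, |(x i : ℝ)| ≤ ∑ _i : ι, ‖y‖ ^ 2 := Finset.sum_le_sum fun i _ => habs i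
      _ = (Fintype.card ι : ℝ) * ‖y‖ ^ 2 := by
        rw [Finset.sum_const, Finset.card_univ, nsmul_eq_mul]
      _ ≤ N * ‖y‖ ^ 2 := by
        apply mul_le_mul_of_nonneg_right _ (by positivity)
        rw [hN]; linarith
  have key : b * ∑ i, |(x i : ℝ)| ≤ a * (qf A x : ℝ) := by
    calc b * ∑ i, |(x i : ℝ)| ≤ b * (N * ‖y‖ ^ 2) :=
          mul_le_mul_of_nonneg_left hsumabs hbpos.le
      _ = a * (c * ‖y‖ ^ 2) := by
        rw [hb]; field_simp
      _ ≤ a * (qf A x : ℝ) := mul_le_mul_of_nonneg_left hq ha.le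
  calc -a * (qf A x : ℝ) ≤ -(b * ∑ i, |(x i : ℝ)|) := by linarith
    _ = ∑ i, -b * |(x i : ℝ)| := by
      rw [Finset.mul_sum, ← Finset.sum_neg_distrib]
      refine Finset.sum_congr rfl fun i _ => ?_
      ring

/-! ### The `q`-expansion -/

/-- The theta series of `A` as a function on the upper half plane. -/
noncomputable def thetaFun (A : Matrix ι ι ℤ) (τ : ℍ) : ℂ :=
  ∑' x : ι → ℤ, cexp (π * I * τ * (qf A x : ℂ))

theorem norm_theta_term (A : Matrix ι ι ℤ) (τ : ℍ) (x : ι → ℤ) :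
    ‖cexp (π * I * τ * (qf A x : ℂ))‖ = Real.exp (-(π * τ.im) * (qf A x : ℝ)) := by
  rw [Complex.norm_exp]
  congr 1
  simp only [Complex.mul_re, Complex.mul_im, Complex.ofReal_re, Complex.ofReal_im,
    Complex.I_re, Complex.I_im, Complex.intCast_re, Complex.intCast_im, UpperHalfPlane.coe_re,
    UpperHalfPlane.coe_im]
  ring

theorem summable_theta_term {A : Matrix ι ι ℤ} (hpos : (A.map (Int.cast : ℤ → ℝ)).PosDef)
    (τ : ℍ) : Summable fun x : ι → ℤ => cexp (π * I * τ * (qf A x : ℂ)) := by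
  apply Summable.of_norm
  simp only [norm_theta_term]
  exact summable_exp_neg_qf hpos (mul_pos Real.pi_pos τ.im_pos)

/-- Half of the value of the quadratic form, as a natural number. -/
def halfQf (A : Matrix ι ι ℤ) (x : ι → ℤ) : ℕ := (qf A x / 2).toNat

theorem two_mul_halfQf {A : Matrix ι ι ℤ} (hsymm : A.IsSymm) (heven : ∀ i, Even (A i i))
    (hpos : (A.map (Int.cast : ℤ → ℝ)).PosDef) (x : ι → ℤ) :
    2 * (halfQf A x : ℤ) = qf A x := by
  obtain ⟨k, hk⟩ := even_qf hsymm heven x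
  have h0 := qf_nonneg hpos x
  unfold halfQf
  rw [hk]
  have hk0 : 0 ≤ k := by omega
  have : (k + k) / 2 = k := by omega
  rw [this, Int.toNat_of_nonneg hk0]
  ring

theorem theta_term_eq {A : Matrix ι ι ℤ} (hsymm : A.IsSymm) (heven : ∀ i, Even (A i i))
    (hpos : (A.map (Int.cast : ℤ → ℝ)).PosDef) (τ : ℍ) (x : ι → ℤ) :
    cexp (π * I * τ * (qf A x : ℂ)) = 𝕢 1 τ ^ halfQf A x := by
  have h := two_mul_halfQf hsymm heven hpos x
  have h' : (qf A x : ℂ) = 2 * (halfQf A x : ℂ) := by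
    have : ((qf A x : ℤ) : ℂ) = ((2 * (halfQf A x : ℤ) : ℤ) : ℂ) := by rw [h]
    simpa using this
  rw [Function.Periodic.qParam, ← Complex.exp_nat_mul, h']
  congr 1
  simp only [Complex.ofReal_one, div_one]
  ring

theorem halfQf_eq_iff {A : Matrix ι ι ℤ} (hsymm : A.IsSymm) (heven : ∀ i, Even (A i i))
    (hpos : (A.map (Int.cast : ℤ → ℝ)).PosDef) (x : ι → ℤ) (m : ℕ) :
    halfQf A x = m ↔ qf A x = 2 * (m : ℤ) := by
  have h := two_mul_halfQf hsymm heven hpos x
  constructor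
  · intro hm
    rw [← h, hm]
  · intro hm
    have : (halfQf A x : ℤ) = m := by linarith
    exact_mod_cast this

/-- **The `q`-expansion of the theta series.** -/
theorem hasSum_theta {A : Matrix ι ι ℤ} (hsymm : A.IsSymm) (heven : ∀ i, Even (A i i))
    (hpos : (A.map (Int.cast : ℤ → ℝ)).PosDef) (τ : ℍ) :
    HasSum (fun m : ℕ => (repCount A m : ℂ) • 𝕢 1 τ ^ m) (thetaFun A τ) := by
  have hs := (summable_theta_term hpos τ).hasSum
  have hfib := hs.tsum_fiberwise (halfQf A)
  have hterm : ∀ m : ℕ,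
      (∑' x : (halfQf A ⁻¹' {m} : Set (ι → ℤ)), cexp (π * I * τ * (qf A (x : ι → ℤ) : ℂ)))
        = (repCount A m : ℂ) • 𝕢 1 τ ^ m := by
    intro m
    have h1 : ∀ x : (halfQf A ⁻¹' {m} : Set (ι → ℤ)),
        cexp (π * I * τ * (qf A (x : ι → ℤ) : ℂ)) = 𝕢 1 τ ^ m := by
      rintro ⟨x, hx⟩
      have hx' : halfQf A x = m := hx
      rw [theta_term_eq hsymm heven hpos τ x, hx']
    rw [tsum_congr h1, tsum_const]
    have hcard : Nat.card (halfQf A ⁻¹' {m} : Set (ι → ℤ)) = repCount A m := by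
      unfold repCount
      apply Nat.card_congr
      exact Equiv.subtypeEquivRight fun x => by
        simp only [Set.mem_preimage, Set.mem_singleton_iff]
        exact halfQf_eq_iff hsymm heven hpos x m
    rw [hcard]
    simp [nsmul_eq_mul]
  simp only [hterm] at hfib
  exact hfib

/-- A modular form whose underlying function is the theta series of `A` has `q`-expansion
coefficients the representation numbers of `A`. -/
theorem qExpansion_coeff_eq_repCount {Γ : Subgroup (GL (Fin 2) ℝ)} {k : ℤ} {F : Type*}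
    [FunLike F ℍ ℂ] [ModularFormClass F Γ k] (f : F) (h1 : (1 : ℝ) ∈ Γ.strictPeriods)
    {A : Matrix ι ι ℤ} (hsymm : A.IsSymm) (heven : ∀ i, Even (A i i))
    (hpos : (A.map (Int.cast : ℤ → ℝ)).PosDef)
    (hf : ∀ τ : ℍ, f τ = thetaFun A τ) (m : ℕ) :
    (UpperHalfPlane.qExpansion 1 f).coeff m = (repCount A m : ℂ) := by
  have := ModularFormClass.qExpansion_coeff_unique (c := fun m => (repCount A m : ℂ)) one_pos h1
    (f := f) (fun τ => by rw [hf τ]; exact hasSum_theta hsymm heven hpos τ) m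
  exact this.symm

end Fermat.Agent.S16.H436
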